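import Mathlib
import Fermat.Agent.ES.D.DVRExt

/-!
# T-S31, part (Q): enough `p`-adic points on a reduced finite free `ℤ`-algebra
-/

set_option autoImplicit false
set_option linter.unusedSectionVars false

namespace Fermat.Agent.S31lib

open Polynomial TensorProduct

section Roots

variable {A : Type*} [CommRing A] [Module.Finite ℤ A] [Module.Free ℤ A]
variable {Om : Type*} [Field Om] [IsAlgClosed Om]

/-- the characteristic polynomial of multiplication by `u`, over `Om` -/
noncomputable def cpol (Om : Type*) [Field Om] (u : A) : Om[X] :=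
  (Algebra.lmul ℤ A u).charpoly.map (Int.castRingHom Om)

theorem cpol_monic (u : A) : (cpol Om u).Monic :=
  (LinearMap.charpoly_monic _).map _

theorem baseChange_lmul_apply (u : A) (v : Om ⊗[ℤ] A) :
    (Algebra.lmul ℤ A u).baseChange Om v = ((1 : Om) ⊗ₜ[ℤ] u) * v := by
  induction v using TensorProduct.induction_on with
  | zero => simp
  | tmul a x => simp [Algebra.TensorProduct.tmul_mul_tmul]
  | add x y hx hy => rw [map_add, hx, hy, mul_add]

theorem cpol_eq (u : A) : cpol Om u = ((Algebra.lmul ℤ A u).baseChange Om).charpoly := by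
  rw [LinearMap.charpoly_baseChange, cpol]
  rfl

/-- every root of the characteristic polynomial of `u` is `χ u` for a ring hom `χ : A → Om`. -/
theorem exists_ringHom_of_isRoot (u : A) (μ : Om) (h : (cpol Om u).IsRoot μ) :
    ∃ χ : A →+* Om, χ u = μ := by
  rw [cpol_eq, ← Module.End.hasEigenvalue_iff_isRoot_charpoly] at h
  obtain ⟨v, hv⟩ := h.exists_hasEigenvector
  have hv1 : ((1 : Om) ⊗ₜ[ℤ] u) * v = μ • v := by
    rw [← baseChange_lmul_apply]
    exact hv.apply_eq_smul
  set w : Om ⊗[ℤ] A := (1 : Om) ⊗ₜ[ℤ] u - algebraMap Om _ μ with hw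
  have hwv : w * v = 0 := by
    rw [hw, sub_mul, hv1, Algebra.smul_def, sub_self]
  have hnu : w ∈ nonunits (Om ⊗[ℤ] A) := by
    intro hu
    exact hv.2 ((hu.mul_right_eq_zero).1 hwv)
  obtain ⟨I, hI, hwI⟩ := exists_max_ideal_of_mem_nonunits hnu
  let _ : Field ((Om ⊗[ℤ] A) ⧸ I) := Ideal.Quotient.field I
  have hfin : Module.Finite Om ((Om ⊗[ℤ] A) ⧸ I) := inferInstance
  have hint : Algebra.IsIntegral Om ((Om ⊗[ℤ] A) ⧸ I) := inferInstance
  have hbij : Function.Bijective (algebraMap Om ((Om ⊗[ℤ] A) ⧸ I)) :=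
    IsAlgClosed.algebraMap_bijective_of_isIntegral
  let e := RingEquiv.ofBijective _ hbij
  refine ⟨e.symm.toRingHom.comp ((Ideal.Quotient.mk I).comp
    (Algebra.TensorProduct.includeRight : A →ₐ[ℤ] Om ⊗[ℤ] A).toRingHom), ?_⟩
  have h1 : Ideal.Quotient.mk I ((1 : Om) ⊗ₜ[ℤ] u) = e μ := by
    have : Ideal.Quotient.mk I w = 0 := Ideal.Quotient.eq_zero_iff_mem.2 hwI
    rw [hw, map_sub, sub_eq_zero] at this
    rw [this]
    rfl
  simp only [RingHom.coe_comp, Function.comp_apply, AlgHom.toRingHom_eq_coe, RingHom.coe_coe,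
    Algebra.TensorProduct.includeRight_apply, RingEquiv.toRingHom_eq_coe]
  rw [h1, RingEquiv.symm_apply_apply]

/-- the trace is the sum of the roots of the characteristic polynomial -/
theorem trace_eq_sum_roots (u : A) :
    ((Algebra.trace ℤ A u : ℤ) : Om) = (cpol Om u).roots.sum := by
  rw [cpol_eq, ← Module.End.trace_eq_sum_roots_charpoly_of_splits (IsAlgClosed.splits _),
    LinearMap.trace_baseChange, Algebra.trace_apply]
  simp

theorem aeval_charpoly_self (u : A) : aeval u (Algebra.lmul ℤ A u).charpoly = 0 := by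
  have h := LinearMap.aeval_self_charpoly (Algebra.lmul ℤ A u)
  rw [Polynomial.aeval_algHom_apply] at h
  have h2 := congrArg (fun f : Module.End ℤ A => f 1) h
  simpa using h2

end Roots

section Disc

variable {A : Type*} [CommRing A] [Module.Finite ℤ A] [Module.Free ℤ A] [IsReduced A]
variable {Om : Type*} [Field Om] [IsAlgClosed Om] [CharZero Om]

/-- if all roots of the characteristic polynomial vanish then `u = 0` -/
theorem eq_zero_of_roots (u : A) (h : ∀ μ ∈ (cpol Om u).roots, μ = 0) : u = 0 := by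
  have h1 : cpol Om u = X ^ (Multiset.card (cpol Om u).roots) := by
    conv_lhs => rw [(IsAlgClosed.splits (cpol Om u)).eq_prod_roots_of_monic (cpol_monic u)]
    rw [Multiset.eq_replicate_card.2 h]
    simp
  have h2 : (Algebra.lmul ℤ A u).charpoly = X ^ (Multiset.card (cpol Om u).roots) := by
    apply Polynomial.map_injective (Int.castRingHom Om) Int.cast_injective
    rw [Polynomial.map_pow, Polynomial.map_X]
    exact h1
  have h3 := aeval_charpoly_self u
  rw [h2, map_pow, aeval_X] at h3
  exact IsReduced.eq_zero _ ⟨_, h3⟩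

theorem sum_eq_count_nsmul (c : Om) (s : Multiset Om) (h : ∀ μ ∈ s, μ = 0 ∨ μ = c) :
    ∃ k : ℕ, s.sum = k • c ∧ (k = 0 → ∀ μ ∈ s, μ = 0) := by
  induction s using Multiset.induction_on with
  | empty => exact ⟨0, by simp, by simp⟩
  | cons a s ih =>
    obtain ⟨k, hk, hk0⟩ := ih fun μ hμ => h μ (Multiset.mem_cons_of_mem hμ)
    rcases h a (Multiset.mem_cons_self a s) with rfl | rfl
    · refine ⟨k, by simp [hk], fun h0 μ hμ => ?_⟩
      rcases Multiset.mem_cons.1 hμ with rfl | hμ
      · rfl
      · exact hk0 h0 μ hμ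
    · exact ⟨k + 1, by rw [Multiset.sum_cons, hk, succ_nsmul'], by simp⟩

theorem trace_ne_zero_of_mul_self (e : A) (n : ℤ) (hn : n ≠ 0) (he : e * e = n • e)
    (h0 : e ≠ 0) : Algebra.trace ℤ A e ≠ 0 := by
  intro htr
  have hroots : ∀ μ ∈ (cpol ℂ e).roots, μ = 0 ∨ μ = (n : ℂ) := by
    intro μ hμ
    obtain ⟨χ, rfl⟩ := exists_ringHom_of_isRoot e μ (isRoot_of_mem_roots hμ)
    have h1 := congrArg χ he
    rw [map_mul, zsmul_eq_mul, map_mul, map_intCast] at h1
    have h2 : χ e * (χ e - n) = 0 := by rw [mul_sub, h1]; ring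
    rcases mul_eq_zero.1 h2 with h | h
    · exact Or.inl h
    · exact Or.inr (sub_eq_zero.1 h)
  obtain ⟨k, hk, hk0⟩ := sum_eq_count_nsmul (n : ℂ) _ hroots
  have h3 := trace_eq_sum_roots (Om := ℂ) e
  rw [htr, hk, Int.cast_zero, nsmul_eq_mul] at h3
  have hk' : k = 0 := by
    rcases mul_eq_zero.1 h3.symm with h | h
    · exact_mod_cast h
    · exact absurd (by exact_mod_cast h) hn
  exact h0 (eq_zero_of_roots (Om := ℂ) e (hk0 hk'))

theorem exists_trace_mul_ne_zero (x : A) (hx : x ≠ 0) : ∃ y, Algebra.trace ℤ A (x * y) ≠ 0 := by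
  set P := (Algebra.lmul ℤ A x).charpoly with hP
  have hP0 : P ≠ 0 := (LinearMap.charpoly_monic _).ne_zero
  obtain ⟨Q, hQ, hQX⟩ := Polynomial.exists_eq_pow_rootMultiplicity_mul_and_not_dvd P hP0 0
  rw [C_0, sub_zero] at hQ hQX
  set k := rootMultiplicity 0 P
  have hn : Q.coeff 0 ≠ 0 := fun h => hQX (Polynomial.X_dvd_iff.2 h)
  have h1 : x ^ k * aeval x Q = 0 := by
    have := aeval_charpoly_self x
    rw [← hP, hQ, map_mul, map_pow, aeval_X] at this
    exact this
  have h2 : x * aeval x Q = 0 := by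
    apply IsReduced.eq_zero
    refine ⟨k + 1, ?_⟩
    calc (x * aeval x Q) ^ (k + 1) = (x ^ k * aeval x Q) * (x * aeval x Q ^ k) := by ring
      _ = 0 := by rw [h1, zero_mul]
  have h3 : aeval x Q = aeval x Q.divX * x + (Q.coeff 0 : A) := by
    conv_lhs => rw [← Polynomial.divX_mul_X_add Q]
    simp
  set z : A := -(aeval x Q.divX) with hz
  set n : ℤ := Q.coeff 0 with hndef
  have h4 : n • x = x * x * z := by
    rw [h3] at h2
    rw [zsmul_eq_mul, hz]
    linear_combination h2
  refine ⟨z, trace_ne_zero_of_mul_self (x * z) n hn ?_ ?_⟩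
  · calc x * z * (x * z) = (x * x * z) * z := by ring
      _ = n • (x * z) := by rw [← h4, smul_mul_assoc]
  · intro h
    have h5 : n • x = 0 := by
      rw [h4, mul_assoc, mul_comm x (x * z), h, zero_mul]
    rcases smul_eq_zero.1 h5 with h | h
    · exact hn h
    · exact hx h

theorem det_traceMatrix_ne_zero {κ : Type*} [Fintype κ] [DecidableEq κ] (b : Module.Basis κ ℤ A) :
    (Algebra.traceMatrix ℤ b).det ≠ 0 := by
  intro hdet
  obtain ⟨v, hv0, hv⟩ := Matrix.exists_mulVec_eq_zero_iff.2 hdet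
  set x : A := ∑ j, v j • b j with hx
  have hx0 : x ≠ 0 := by
    intro h
    apply hv0
    have := (Fintype.linearIndependent_iff.1 b.linearIndependent) v h
    exact funext this
  have h1 : ∀ i, Algebra.trace ℤ A (x * b i) = 0 := by
    intro i
    have h2 := congrFun hv i
    rw [Matrix.mulVec, dotProduct, Pi.zero_apply] at h2
    rw [hx, Finset.sum_mul, map_sum, ← h2]
    refine Finset.sum_congr rfl fun j _ => ?_
    rw [smul_mul_assoc, map_smul, Algebra.traceMatrix_apply, Algebra.traceForm_apply, smul_eq_mul,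
      mul_comm (b j) (b i), mul_comm]
  obtain ⟨y, hy⟩ := exists_trace_mul_ne_zero x hx0
  apply hy
  rw [← b.sum_repr y, Finset.mul_sum, map_sum]
  refine Finset.sum_eq_zero fun i _ => ?_
  rw [mul_smul_comm, map_smul, h1, smul_zero]

end Disc

section Cramer

variable {A : Type*} [CommRing A] [Module.Finite ℤ A] [Module.Free ℤ A]

theorem dvd_det_mul_repr {κ : Type*} [Fintype κ] [DecidableEq κ] (b : Module.Basis κ ℤ A) (t : A)
    (m : ℤ) (h : ∀ i, m ∣ Algebra.trace ℤ A (t * b i)) (j : κ) :
    m ∣ (Algebra.traceMatrix ℤ b).det * b.repr t j := by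
  set M := Algebra.traceMatrix ℤ b with hM
  set c : κ → ℤ := fun j => b.repr t j with hc
  have h1 : ∀ i, (M.mulVec c) i = Algebra.trace ℤ A (t * b i) := by
    intro i
    rw [Matrix.mulVec, dotProduct]
    conv_rhs => rw [← b.sum_repr t, Finset.sum_mul, map_sum]
    refine Finset.sum_congr rfl fun j _ => ?_
    rw [smul_mul_assoc, map_smul, hM, Algebra.traceMatrix_apply, Algebra.traceForm_apply,
      smul_eq_mul, mul_comm (b j) (b i), mul_comm]
  have h2 : M.adjugate.mulVec (M.mulVec c) = M.det • c := by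
    rw [Matrix.mulVec_mulVec, Matrix.adjugate_mul, Matrix.smul_mulVec, Matrix.one_mulVec]
  have h3 := congrFun h2 j
  rw [Pi.smul_apply, smul_eq_mul] at h3
  rw [← h3, Matrix.mulVec, dotProduct]
  exact Finset.dvd_sum fun i _ => Dvd.dvd.mul_left (h1 i ▸ h i) _

theorem eval_cpol_ringHom {Om : Type*} [Field Om] (χ : A →+* Om) (u : A) :
    (cpol Om u).eval (χ u) = 0 := by
  have h := congrArg χ (aeval_charpoly_self u)
  rw [map_zero, Polynomial.aeval_def, Polynomial.hom_eval₂] at h
  rw [cpol, Polynomial.eval_map, ← h]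
  congr 1
  exact RingHom.ext_int _ _

end Cramer

section Padic

variable (p : ℕ) [Fact p.Prime]

/-- an algebraic closure of `ℚ_p` -/
abbrev Omp : Type := AlgebraicClosure (FractionRing ℤ_[p])

variable {A : Type*} [CommRing A] [Module.Finite ℤ A] [Module.Free ℤ A]

theorem sum_eq_mul_integral (c : Omp p) (s : Multiset (Omp p))
    (h : ∀ μ ∈ s, ∃ y : Omp p, IsIntegral ℤ_[p] y ∧ μ = c * y) :
    ∃ Y : Omp p, IsIntegral ℤ_[p] Y ∧ s.sum = c * Y := by
  induction s using Multiset.induction_on with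
  | empty => exact ⟨0, isIntegral_zero, by simp⟩
  | cons a s ih =>
    obtain ⟨Y, hY, hs⟩ := ih fun μ hμ => h μ (Multiset.mem_cons_of_mem hμ)
    obtain ⟨y, hy, rfl⟩ := h a (Multiset.mem_cons_self a s)
    exact ⟨y + Y, hy.add hY, by rw [Multiset.sum_cons, hs, mul_add]⟩

theorem pow_dvd_trace (u : A) (M : ℕ)
    (h : ∀ χ : A →+* Omp p, ∃ y : Omp p, IsIntegral ℤ_[p] y ∧ χ u = (p : Omp p) ^ M * y) :
    (p : ℤ) ^ M ∣ Algebra.trace ℤ A u := by
  have hp0 : (p : FractionRing ℤ_[p]) ≠ 0 := by
    exact_mod_cast (Fact.out : p.Prime).ne_zero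
  obtain ⟨Y, hY, hsum⟩ := sum_eq_mul_integral p ((p : Omp p) ^ M) (cpol (Omp p) u).roots (by
    intro μ hμ
    obtain ⟨χ, rfl⟩ := exists_ringHom_of_isRoot u μ (isRoot_of_mem_roots hμ)
    exact h χ)
  rw [← trace_eq_sum_roots] at hsum
  set τ : ℤ := Algebra.trace ℤ A u with hτ
  set x : FractionRing ℤ_[p] := (τ : FractionRing ℤ_[p]) / (p : FractionRing ℤ_[p]) ^ M with hx
  have hxY : algebraMap (FractionRing ℤ_[p]) (Omp p) x = Y := by
    have hp0' : (p : Omp p) ^ M ≠ 0 := by
      apply pow_ne_zero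
      exact_mod_cast (Fact.out : p.Prime).ne_zero
    rw [hx, map_div₀, map_pow, map_natCast, map_intCast, hsum, mul_div_cancel_left₀ _ hp0']
  have hxint : IsIntegral ℤ_[p] x := by
    rw [← hxY] at hY
    exact (isIntegral_algebraMap_iff (algebraMap (FractionRing ℤ_[p]) (Omp p)).injective).1 hY
  obtain ⟨z, hz⟩ := IsIntegrallyClosed.isIntegral_iff.1 hxint
  rw [← PadicInt.pow_p_dvd_int_iff]
  refine ⟨z, ?_⟩
  apply IsFractionRing.injective ℤ_[p] (FractionRing ℤ_[p])
  rw [map_mul, hz, hx, map_pow, map_natCast, map_intCast, mul_div_cancel₀ _ (pow_ne_zero _ hp0)]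

end Padic

section Main

open IsLocalRing Fermat.Agent.ESlib.PartD

variable (p : ℕ) [Fact p.Prime]
variable (A : Type*) [CommRing A] [Module.Finite ℤ A] [Module.Free ℤ A]

/-- the values of all points on a basis -/
def valSet : Set (Omp p) :=
  {x | ∃ (i : Module.Free.ChooseBasisIndex ℤ A) (χ : A →+* Omp p),
    x = χ (Module.Free.chooseBasis ℤ A i)}

theorem finite_valSet : (valSet p A).Finite := by
  classical
  refine Set.Finite.subset (Set.finite_iUnion fun i : Module.Free.ChooseBasisIndex ℤ A =>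
    (cpol (Omp p) (Module.Free.chooseBasis ℤ A i)).roots.toFinset.finite_toSet) ?_
  rintro x ⟨i, χ, rfl⟩
  refine Set.mem_iUnion.2 ⟨i, ?_⟩
  simp only [Finset.mem_coe, Multiset.mem_toFinset]
  exact (mem_roots (cpol_monic _).ne_zero).2 (eval_cpol_ringHom χ _)

/-- the field generated by the values of all points -/
noncomputable abbrev ptField : IntermediateField (FractionRing ℤ_[p]) (Omp p) :=
  IntermediateField.adjoin (FractionRing ℤ_[p]) (valSet p A)

instance : FiniteDimensional (FractionRing ℤ_[p]) (ptField p A) := by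
  have := (finite_valSet p A).to_subtype
  exact IntermediateField.finiteDimensional_adjoin fun x _ => Algebra.IsIntegral.isIntegral x

instance : IsScalarTower ℤ_[p] (ptField p A) (Omp p) :=
  IsScalarTower.of_algebraMap_eq fun _ => rfl

/-- the ring of integers of `ptField` -/
noncomputable abbrev ptRing : Type := integralClosure ℤ_[p] (ptField p A)

variable {A}

theorem ringHom_mem_ptField (χ : A →+* Omp p) (t : A) : χ t ∈ ptField p A := by
  rw [← (Module.Free.chooseBasis ℤ A).sum_repr t, map_sum]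
  refine sum_mem fun i _ => ?_
  rw [zsmul_eq_mul, map_mul, map_intCast]
  exact mul_mem (intCast_mem _ _) (IntermediateField.subset_adjoin _ _ ⟨i, χ, rfl⟩)

theorem isIntegral_ringHom (χ : A →+* Omp p) (t : A) : IsIntegral ℤ_[p] (χ t) := by
  refine ⟨(Algebra.lmul ℤ A t).charpoly.map (Int.castRingHom ℤ_[p]),
    (LinearMap.charpoly_monic _).map _, ?_⟩
  have h := eval_cpol_ringHom χ t
  rw [cpol, Polynomial.eval_map] at h
  rw [Polynomial.eval₂_map, ← h]
  congr 1
  exact RingHom.ext_int _ _

/-- corestriction of a point to the ring of integers -/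
noncomputable def corestr (χ : A →+* Omp p) : A →+* ptRing p A :=
  (χ.codRestrict (ptField p A) (ringHom_mem_ptField p χ)).codRestrict
    (integralClosure ℤ_[p] (ptField p A)) (fun t => by
      rw [mem_integralClosure_iff]
      refine (isIntegral_algebraMap_iff
        (algebraMap (ptField p A) (Omp p)).injective).1 ?_
      exact isIntegral_ringHom p χ t)

theorem coe_corestr (χ : A →+* Omp p) (t : A) :
    (((corestr p χ t : ptRing p A) : ptField p A) : Omp p) = χ t := rfl

theorem finite_ringHom_Omp : Finite (A →+* Omp p) := by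
  have := (finite_valSet p A).to_subtype
  refine Finite.of_injective (fun χ : A →+* Omp p =>
    fun i : Module.Free.ChooseBasisIndex ℤ A =>
      (⟨χ (Module.Free.chooseBasis ℤ A i), ⟨i, χ, rfl⟩⟩ : valSet p A)) ?_
  intro χ ψ h
  ext t
  rw [← (Module.Free.chooseBasis ℤ A).sum_repr t, map_sum, map_sum]
  refine Finset.sum_congr rfl fun i _ => ?_
  rw [zsmul_eq_mul, map_mul, map_mul, map_intCast, map_intCast]
  have := congrArg Subtype.val (congrFun h i)
  simp only at this
  rw [this]

/-- the inclusion of the ring of integers -/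
noncomputable def ptIncl : ptRing p A →+* Omp p :=
  (algebraMap (ptField p A) (Omp p)).comp (algebraMap (ptRing p A) (ptField p A))

theorem ptIncl_injective : Function.Injective (ptIncl p (A := A)) :=
  (algebraMap (ptField p A) (Omp p)).injective.comp Subtype.val_injective

theorem ptIncl_corestr (χ : A →+* Omp p) (t : A) : ptIncl p (corestr p χ t) = χ t := rfl

theorem isIntegral_ptIncl (y : ptRing p A) : IsIntegral ℤ_[p] (ptIncl p y) := by
  have h : IsIntegral ℤ_[p] (y : ptField p A) := y.2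
  exact (isIntegral_algebraMap_iff (algebraMap (ptField p A) (Omp p)).injective).2 h

theorem finite_ringHom_ptRing : Finite (A →+* ptRing p A) := by
  have := finite_ringHom_Omp p (A := A)
  refine Finite.of_injective (fun χ : A →+* ptRing p A => (ptIncl p).comp χ) ?_
  intro χ ψ h
  refine RingHom.ext fun t => ?_
  have := congrArg (fun f : A →+* Omp p => f t) h
  exact ptIncl_injective p this

variable (A) in
/-- **(Q)** enough `p`-adic points. -/
theorem exists_points [IsReduced A] :
    ∃ (a : ℕ) (O : Type) (_ : CommRing O) (_ : IsDomain O) (_ : IsDiscreteValuationRing O)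
      (_ : IsAdicComplete (maximalIdeal O) O) (_ : Finite (ResidueField O)) (_ : CharZero O),
      (p : O) ∈ maximalIdeal O ∧ Finite (A →+* O) ∧
      ∀ (t : A) (n : ℕ), (∀ χ : A →+* O, (p : O) ^ (a + n) ∣ χ t) → (p : A) ^ n ∣ t := by
  classical
  have hp : p.Prime := Fact.out
  set b := Module.Free.chooseBasis ℤ A with hb
  set d := (Algebra.traceMatrix ℤ b).det with hd
  have hd0 : d ≠ 0 := det_traceMatrix_ne_zero b
  have hfm : FiniteMultiplicity (p : ℤ) d :=
    Int.finiteMultiplicity_iff.2 ⟨by simpa using hp.ne_one, hd0⟩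
  obtain ⟨d', hd', hpd'⟩ := hfm.exists_eq_pow_mul_and_not_dvd
  set a := multiplicity (p : ℤ) d with ha
  have hdvr : IsDiscreteValuationRing (ptRing p A) := isDVR_integralClosure ℤ_[p] (ptField p A)
  have hcomp : IsAdicComplete (maximalIdeal (ptRing p A)) (ptRing p A) :=
    isAdicComplete_integralClosure ℤ_[p] (ptField p A)
  have hfin0 : Finite (ResidueField ℤ_[p]) := Finite.of_equiv _ PadicInt.residueField.symm.toEquiv
  have hfin : Finite (ResidueField (ptRing p A)) :=
    finite_residueField_integralClosure ℤ_[p] (ptField p A)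
  have hchar : CharZero (ptRing p A) := charZero_integralClosure ℤ_[p] (ptField p A)
  refine ⟨a, ptRing p A, inferInstance, inferInstance, hdvr, hcomp, hfin, hchar, ?_,
    finite_ringHom_ptRing p, ?_⟩
  · have hloc := isLocalHom_integralClosure ℤ_[p] (ptField p A)
    rw [mem_maximalIdeal, mem_nonunits_iff]
    intro hu
    have h1 : IsUnit (algebraMap ℤ_[p] (ptRing p A) (p : ℤ_[p])) := by
      rwa [map_natCast]
    have h2 := hloc.map_nonunit _ h1
    exact PadicInt.p_nonunit h2
  · intro t n H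
    have htr : ∀ i, (p : ℤ) ^ (a + n) ∣ Algebra.trace ℤ A (t * b i) := by
      intro i
      refine pow_dvd_trace p _ _ fun χ => ?_
      obtain ⟨y, hy⟩ := H (corestr p χ)
      refine ⟨ptIncl p y * χ (b i), (isIntegral_ptIncl p y).mul (isIntegral_ringHom p χ _), ?_⟩
      rw [map_mul, ← ptIncl_corestr p χ t, hy, map_mul, map_pow, map_natCast, mul_assoc]
    have hc : ∀ j, (p : ℤ) ^ n ∣ b.repr t j := by
      intro j
      have h1 := dvd_det_mul_repr b t _ htr j
      rw [← hd, hd', pow_add, mul_assoc] at h1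
      have h2 : (p : ℤ) ^ n ∣ d' * b.repr t j :=
        (mul_dvd_mul_iff_left (pow_ne_zero _ (by exact_mod_cast hp.ne_zero))).1 h1
      have hcop : IsCoprime ((p : ℤ) ^ n) d' :=
        IsCoprime.pow_left (((Nat.prime_iff_prime_int.1 hp).coprime_iff_not_dvd).2 hpd')
      exact hcop.dvd_of_dvd_mul_left h2
    choose c hc' using hc
    refine ⟨∑ j, c j • b j, ?_⟩
    conv_lhs => rw [← b.sum_repr t]
    rw [Finset.mul_sum]
    refine Finset.sum_congr rfl fun j _ => ?_
    rw [hc' j, mul_smul, zsmul_eq_mul ((c j) • b j)]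
    push_cast
    rfl

end Main

end Fermat.Agent.S31lib
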